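import Fermat.Agent.Row24.AlgEquiv
import Fermat.Agent.Row24.Represent

/-!
# Conditions on line bundles defined at field-valued points

A property of rigidified bundles over fields gives a cut on rigidified bundles over all test
objects, which is local on the test object.
-/

set_option autoImplicit false

universe u

open CategoryTheory CategoryTheory.Limits AlgebraicGeometry AlgebraicGeometry.RelPicard
  NeronModelInfra GoodReductionJacobian

noncomputable section

namespace Fermat.Agent.Row24

variable {k : Type u} [Field k] {C : Scheme.{u}} (c : C ⟶ Spec (CommRingCat.of k))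
  (ε : SchemeHomOver (𝟙 (Spec (CommRingCat.of k))) c)

/-- A property of rigidified bundles over fields over `k`, stable under isomorphism and holding
for trivial bundles. -/
structure PointProperty where
  /-- the property -/
  holds : ∀ (K : Type u) [Field K] (q : Spec (CommRingCat.of K) ⟶ Spec (CommRingCat.of k)),
    RigidifiedLineBundle c ε q → Prop
  holds_congr : ∀ (K : Type u) [Field K] (q : Spec (CommRingCat.of K) ⟶ Spec (CommRingCat.of k))
    (M M' : RigidifiedLineBundle c ε q), Nonempty (M.L ≅ M'.L) → holds K q M → holds K q M'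
  holds_unit : ∀ (K : Type u) [Field K] (q : Spec (CommRingCat.of K) ⟶ Spec (CommRingCat.of k)),
    holds K q (RigidifiedLineBundle.unit q)

variable {c ε}

/-- The cut: the property holds at every field-valued point. -/
def pointCut (Φ : PointProperty c ε) : SubPicCondition c ε where
  P {T} t M := ∀ (K : Type u) [Field K] (s : Spec (CommRingCat.of K) ⟶ T),
    Φ.holds K (s ≫ t) (M.pullbackAlong ⟨s, rfl⟩)
  unit_mem {T} t := fun K _ s =>
    Φ.holds_congr K _ _ _ ⟨(Scheme.Modules.pullbackUnitIso _).symm⟩ (Φ.holds_unit K _)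
  congr {T} t M M' h hM := fun K _ s =>
    Φ.holds_congr K _ _ _ (RigidifiedLineBundle.pullbackAlong_congr _ h) (hM K s)
  pullback_mem {T T'} t t' ψ M hM := fun K _ s => by
    have key : ∀ (q : Spec (CommRingCat.of K) ⟶ Spec (CommRingCat.of k))
        (a : SchemeHomOver q t), a.1 = s ≫ ψ.1 → Φ.holds K q (M.pullbackAlong a) := by
      rintro q ⟨a, ha⟩ rfl
      subst ha
      exact hM K _
    refine Φ.holds_congr K _ _ _ ?_ (key (s ≫ t') ⟨s ≫ ψ.1, by rw [Category.assoc, ψ.2]⟩ rfl)
    obtain ⟨e⟩ := nonempty_pullbackAlong_iso M ψ (⟨s, rfl⟩ : SchemeHomOver (s ≫ t') t')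
      ⟨s ≫ ψ.1, by rw [Category.assoc, ψ.2]⟩ rfl
    exact ⟨e.symm⟩

theorem pointCut_apply (Φ : PointProperty c ε) {T : Scheme.{u}}
    (t : T ⟶ Spec (CommRingCat.of k)) (M : RigidifiedLineBundle c ε t) :
    (pointCut Φ).P t M ↔ ∀ (K : Type u) [Field K] (s : Spec (CommRingCat.of K) ⟶ T),
      Φ.holds K (s ≫ t) (M.pullbackAlong ⟨s, rfl⟩) := Iff.rfl

/-- The property at an arbitrary presentation of a point. -/
theorem pointCut_holds (Φ : PointProperty c ε) {T : Scheme.{u}}
    {t : T ⟶ Spec (CommRingCat.of k)} {M : RigidifiedLineBundle c ε t}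
    (hM : (pointCut Φ).P t M) (K : Type u) [Field K]
    {q : Spec (CommRingCat.of K) ⟶ Spec (CommRingCat.of k)} (a : SchemeHomOver q t) :
    Φ.holds K q (M.pullbackAlong a) := by
  obtain ⟨a, ha⟩ := a
  subst ha
  exact hM K a

theorem isLocalCondition_pointCut (Φ : PointProperty c ε) : IsLocalCondition (pointCut Φ) := by
  intro T ι U hU M hM K _ s
  obtain ⟨i, hi⟩ := hU (s (IsLocalRing.closedPoint K))
  have hr : Set.range s ⊆ Set.range (U i).ι := by
    rintro _ ⟨q, rfl⟩
    rw [Subsingleton.elim q (IsLocalRing.closedPoint K), Scheme.Opens.range_ι]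
    exact hi
  have hs : IsOpenImmersion.lift (U i).ι s hr ≫ (U i).ι = s := IsOpenImmersion.lift_fac _ _ _
  have h := pointCut_holds Φ (hM i) K (q := s ≫ T.hom)
    ⟨IsOpenImmersion.lift (U i).ι s hr, by
      show _ ≫ (U i).ι ≫ T.hom = _
      rw [← Category.assoc, hs]⟩
  refine Φ.holds_congr K _ _ _ ?_ h
  exact nonempty_pullbackAlong_iso M _ _ ⟨s, rfl⟩ hs

end Fermat.Agent.Row24

end
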